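import Mathlib
import Fermat.Agent.TFin.WComp
import Fermat.Agent.Ell.Flat
import Fermat.Agent.H25.FlT
import Fermat.Agent.H02M.StT1

/-!
# Local conditions at `p` of the trace of the `p`-adic representation of a semistable curve
-/

set_option autoImplicit false
set_option linter.unusedSectionVars false
set_option linter.style.haveILetI false

noncomputable section

namespace Fermat.Agent.TFin

open Fermat.Agent.H25 Fermat.Agent.H25.PR Fermat.Agent.H25.TR Fermat.Agent.TW Fermat.Agent.CC Matrix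
open Fermat.Agent.H25.TWM Fermat.Agent.H25.GE Fermat.Agent.H12.LL Fermat.Agent.H25.PT
open IsLocalRing
open WeierstrassCurve WeierstrassCurve.Affine WeierstrassCurve.Affine.Point
open Fermat.Agent.H08 Fermat.Agent.Ell
open scoped Pointwise

variable {W : WeierstrassCurve ℤ} {p : ℕ} [hp : Fact p.Prime]
  {O : Type} [CommRing O] [IsLocalRing O] [Algebra ℤ_[p] O]
  [IsLocalHom (algebraMap ℤ_[p] O)]

theorem ext_tW (c : GQ →₀ ℤ) (h : GQ) : ext (tW W p O) c h =
    algebraMap ℤ_[p] O (LinearMap.trace ℤ_[p] (TT (WQ W) p)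
      ((c.sum fun g a => a • rr (WQ W) p g) * rr (WQ W) p h)) := by
  rw [PT.ext, Finsupp.sum, Finsupp.sum, Finset.sum_mul, map_sum, map_sum]
  refine Finset.sum_congr rfl fun g _ => ?_
  rw [smul_mul_assoc, ← map_mul, map_zsmul, map_zsmul]
  rfl

/-- an endomorphism with values in `p ^ n T` has trace divisible by `p ^ n` -/
theorem trace_dvd_of_range [(WQ W).IsElliptic] (n : ℕ) (f : Module.End ℤ_[p] (TT (WQ W) p))
    (hf : ∀ v, f v ∈ (maximalIdeal ℤ_[p] ^ n) • (⊤ : Submodule ℤ_[p] (TT (WQ W) p))) :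
    (p : ℤ_[p]) ^ n ∣ LinearMap.trace ℤ_[p] (TT (WQ W) p) f := by
  set b := tateBasis (WQ W) p
  rw [← trace_mtx b, Matrix.trace_fin_two]
  have h3 : ∀ i, (p : ℤ_[p]) ^ n ∣ mtx b f i i := by
    intro i
    have h2 := hf (b i)
    rw [PadicInt.maximalIdeal_eq_span_p, Ideal.span_singleton_pow,
      Submodule.ideal_span_singleton_smul] at h2
    obtain ⟨f', -, hf'⟩ := h2
    have hf'' : (p : ℤ_[p]) ^ n • f' = f (b i) := hf'
    rw [mtx_apply, ← hf'', map_smul, Finsupp.smul_apply, smul_eq_mul]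
    exact dvd_mul_right _ _
  exact dvd_add (h3 0) (h3 1)

/-- **Good reduction at `p`: flat.** -/
theorem flT_tW (hΔ : W.Δ ≠ 0) (hgood : W.IsGoodPrimeFor p) : FlT p O (tW W p O) := by
  haveI := isElliptic_WQ hΔ
  intro n
  haveI := finite_quot (p := p) n
  refine ⟨_, inferInstance, H19.finite_level (zRep W hΔ p) (maximalIdeal ℤ_[p] ^ n), _,
    zRep_hasHopf_level hΔ hgood n, fun c hc h => ?_⟩
  rw [ext_tW]
  have h1 : ∀ v : TT (WQ W) p, (c.sum fun g a => a • rr (WQ W) p g) v ∈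
      (maximalIdeal ℤ_[p] ^ n) • (⊤ : Submodule ℤ_[p] (TT (WQ W) p)) := by
    intro v
    have h2 := hc (Submodule.Quotient.mk v)
    rw [H19.gr, Finsupp.linearCombination_apply, Finsupp.sum] at h2
    rw [← Submodule.Quotient.mk_eq_zero, ← Submodule.mkQ_apply, Finsupp.sum,
      LinearMap.sum_apply, map_sum]
    exact h2
  have h3 := trace_dvd_of_range n ((c.sum fun g a => a • rr (WQ W) p g) * rr (WQ W) p h)
    (fun v => h1 _)
  obtain ⟨x, hx⟩ := map_dvd (algebraMap ℤ_[p] O) h3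
  rw [hx, map_pow, map_natCast]
  refine Ideal.mul_mem_right _ _ (Ideal.pow_mem_pow ?_ n)
  have : lamI O O = maximalIdeal O := by rw [lamI]; exact Ideal.map_id _
  rw [this]
  exact p_mem_maxO O

/-- **Multiplicative reduction at `p`: strictly ordinary.** -/
theorem stT_tW_aux (hΔ : W.Δ ≠ 0) (hirr : W.ModRepIsIrreducible p) (hp' : (p : ℤ) ∣ W.Δ)
    (hss : ¬ (p : ℤ) ∣ W.c₄) {A : ValuationSubring Qb} (hA : A.LiesOverPrime p) :
    ∃ ψ : GQ → ℤ, (∀ σ, ψ σ = 1 ∨ ψ σ = -1) ∧ (∀ σ ∈ A.inertiaSubgroupIn ℚ, ψ σ = 1) ∧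
      (∀ σ ∈ A.decompositionSubgroup ℚ, ∀ τ ∈ A.decompositionSubgroup ℚ,
        ψ (σ * τ) = ψ σ * ψ τ) ∧
      ∀ σ ∈ A.decompositionSubgroup ℚ, ∀ τ ∈ A.decompositionSubgroup ℚ, ∀ g,
        tW W p O (σ * τ * g) - (ψ τ : O) * tW W p O (σ * g) -
          algebraMap ℤ_[p] O (LinearMap.det (rr (WQ W) p σ)) * (ψ σ : O) * tW W p O (τ * g) +
          algebraMap ℤ_[p] O (LinearMap.det (rr (WQ W) p σ)) * (ψ σ : O) * (ψ τ : O) *
            tW W p O g = 0 := by
  haveI := isElliptic_WQ hΔ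
  have hns := exists_nonscalar_of_irr hΔ hirr
  obtain ⟨b, s, h1, h2, h3, h4, h5⟩ := exists_mult_structure p hΔ hp.out hp' hss hns hA
  refine ⟨s, h1, h2, fun σ hσ τ hτ => h3 σ τ hσ hτ, fun σ hσ τ hτ g => ?_⟩
  have key : (rr (WQ W) p σ - (LinearMap.det (rr (WQ W) p σ) * (s σ : ℤ_[p])) • 1) *
      (rr (WQ W) p τ - (s τ : ℤ_[p]) • 1) = 0 := by
    apply LinearMap.ext
    intro v
    have h6 := h5 τ hτ v
    obtain ⟨c, hc⟩ := Submodule.mem_span_singleton.mp h6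
    change (rr (WQ W) p σ - (LinearMap.det (rr (WQ W) p σ) * (s σ : ℤ_[p])) • 1)
      (rr (WQ W) p τ v - (s τ : ℤ_[p]) • v) = 0
    rw [← hc, map_smul, LinearMap.sub_apply, h4 σ hσ]
    have : (LinearMap.det (rr (WQ W) p σ) * (s σ : ℤ_[p])) • b 0 -
      ((LinearMap.det (rr (WQ W) p σ) * (s σ : ℤ_[p])) • (1 : Module.End ℤ_[p] (TT (WQ W) p)))
        (b 0) = 0 := by
      rw [LinearMap.smul_apply, Module.End.one_apply, sub_self]
    rw [this]
    exact smul_zero (A := TT (WQ W) p) c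
  have h7 : LinearMap.trace ℤ_[p] (TT (WQ W) p) ((rr (WQ W) p σ -
      (LinearMap.det (rr (WQ W) p σ) * (s σ : ℤ_[p])) • 1) *
      (rr (WQ W) p τ - (s τ : ℤ_[p]) • 1) * rr (WQ W) p g) = 0 := by
    rw [key, zero_mul, _root_.map_zero]
  have h8 : (rr (WQ W) p σ -
      (LinearMap.det (rr (WQ W) p σ) * (s σ : ℤ_[p])) • 1) *
      (rr (WQ W) p τ - (s τ : ℤ_[p]) • 1) * rr (WQ W) p g = rr (WQ W) p (σ * τ * g) -
      (s τ : ℤ_[p]) • rr (WQ W) p (σ * g) -
      (LinearMap.det (rr (WQ W) p σ) * (s σ : ℤ_[p])) • rr (WQ W) p (τ * g) +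
      (LinearMap.det (rr (WQ W) p σ) * (s σ : ℤ_[p]) * (s τ : ℤ_[p])) • rr (WQ W) p g := by
    simp only [map_mul, sub_mul, mul_sub, smul_mul_assoc, mul_smul_comm, one_mul, mul_one]
    module
  rw [h8] at h7
  simp only [map_add, map_sub, map_smul, smul_eq_mul] at h7
  have h9 := congrArg (algebraMap ℤ_[p] O) h7
  simp only [map_add, map_sub, map_mul, map_intCast, _root_.map_zero] at h9
  simpa only [tW, map_mul] using h9


/-! ### strict ordinarity in helper2's form -/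

open Fermat.Agent.H25.St

/-- **(G9')** strict ordinarity at `p` of the component attached to a curve with multiplicative
reduction at `p`. -/
theorem exists_stT_tW (hΔ : W.Δ ≠ 0) (hirr : W.ModRepIsIrreducible p) (hp2 : p ≠ 2)
    (hp' : (p : ℤ) ∣ W.Δ) (hss : ¬ (p : ℤ) ∣ W.c₄) {A : ValuationSubring Qb}
    (hA : A.LiesOverPrime p) :
    ∃ ψ : GQ → ℤ, UQ A ψ ∧ StT A (RDW hΔ hirr hp2 O).chi ψ (tW W p O) ∧
      OrdD (RDW hΔ hirr hp2 O) A ψ := by
  obtain ⟨ψ, h1, h2, h3, h4⟩ := stT_tW_aux (O := O) hΔ hirr hp' hss hA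
  have hu : UQ A ψ := ⟨fun σ _ => h1 σ, h3, h2⟩
  have hst : StT A (RDW hΔ hirr hp2 O).chi ψ (tW W p O) := fun σ hσ τ hτ g => h4 σ hσ τ hτ g
  refine ⟨ψ, hu, hst, hu, ?_⟩
  have h5 := StZ.map hst (residue O)
  intro σ hσ τ hτ g
  have h6 := h5 σ hσ τ hτ g
  simp only [map_mul, map_intCast] at h6
  exact h6

/-- uniqueness of the quadratic character -/
theorem OrdD_unique {k : Type} [Field k] {O : Type} [CommRing O] {D : RD O k}
    {A : ValuationSubring Qb} {ψ ψ' : GQ → ℤ} (h : OrdD D A ψ) (h' : OrdD D A ψ')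
    (hne : ∃ σ ∈ A.inertiaSubgroupIn ℚ, D.res (D.chi σ) ≠ 1) {σ : GQ}
    (hσ : σ ∈ A.decompositionSubgroup ℚ) : ψ σ = ψ' σ := by
  -- `(ρ̄ τ - χ̄ τ)(ρ̄ σ - ψ σ) = 0` for `τ` in inertia
  obtain ⟨τ, hτ, hτ1⟩ := hne
  have hτD := inertia_le_decomposition A hτ
  by_contra hcon
  have h1 := h.matrix hτD hσ
  have h2 := h'.matrix hτD hσ
  rw [h.uq.ine τ hτ, Int.cast_one, mul_one] at h1
  rw [h'.uq.ine τ hτ, Int.cast_one, mul_one] at h2
  have h3 : (((ψ σ : ℤ) : k) - (ψ' σ : k)) •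
      (D.rbar τ - (D.res (D.chi τ)) • (1 : Mt k)) = 0 := by
    have h4 : (D.rbar τ - (D.res (D.chi τ)) • (1 : Mt k)) * (D.rbar σ - (ψ' σ : k) • (1 : Mt k)) -
        (D.rbar τ - (D.res (D.chi τ)) • (1 : Mt k)) * (D.rbar σ - (ψ σ : k) • (1 : Mt k)) =
        (((ψ σ : ℤ) : k) - (ψ' σ : k)) • (D.rbar τ - (D.res (D.chi τ)) • (1 : Mt k)) := by
      rw [← mul_sub, sub_sub_sub_cancel_left, ← sub_smul, mul_smul_comm, mul_one]
    rw [← h4, h1, h2, sub_zero]
  have h2k : (2 : k) ≠ 0 := by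
    intro h0
    have := D.h2k
    rw [h0, mul_zero] at this
    exact zero_ne_one this
  have h5 : ((ψ σ : ℤ) : k) - (ψ' σ : k) ≠ 0 := by
    rcases h.uq.pm σ hσ with ha | ha <;> rcases h'.uq.pm σ hσ with hb | hb
    · exact absurd (ha.trans hb.symm) hcon
    · rw [ha, hb]
      push_cast
      rw [sub_neg_eq_add, one_add_one_eq_two]
      exact h2k
    · rw [ha, hb]
      push_cast
      rw [← neg_add', one_add_one_eq_two]
      exact neg_ne_zero.mpr h2k
    · exact absurd (ha.trans hb.symm) hcon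
  have h6 := (smul_eq_zero.mp h3).resolve_left h5
  have h7 : D.rbar τ = D.res (D.chi τ) • (1 : Mt k) := sub_eq_zero.mp h6
  have h8 := D.det_rbar τ
  rw [h7, Matrix.det_smul, Fintype.card_fin, Matrix.det_one, mul_one] at h8
  have h9 : D.res (D.chi τ) ≠ 0 := by
    intro h0
    have h10 : D.rbar τ * D.rbar τ⁻¹ = 1 := by rw [← map_mul, mul_inv_cancel, map_one]
    have h11 := congrArg Matrix.det h10
    rw [Matrix.det_mul, D.det_rbar, h0, zero_mul, Matrix.det_one] at h11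
    exact zero_ne_one h11
  apply hτ1
  have h12 : D.res (D.chi τ) * D.res (D.chi τ) = D.res (D.chi τ) * 1 := by
    rw [mul_one, ← pow_two]; exact h8
  exact mul_left_cancel₀ h9 h12

end Fermat.Agent.TFin
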