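import Mathlib
import Fermat.Agent.H12.LL.LLmain
import Fermat.Agent.TC.Rs2
import Fermat.Agent.H22.RIn

/-!
# Towers of levels of type `Γ₀` attached to a curve
-/

set_option autoImplicit false
set_option linter.unusedSectionVars false
set_option linter.style.haveILetI false

noncomputable section

namespace Fermat.Agent.TFin

open Fermat.Agent.TC Fermat.Agent.TW Fermat.Agent.CC Fermat.Agent.H25.GE Fermat.Agent.H25.TR
open Fermat.Agent.Ell Fermat.Agent.H25 Fermat.Agent.H25.PR Fermat.Agent.H25.PT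
open Fermat.Agent.H22 Fermat.Agent.H12.LL
open IsLocalRing CongruenceSubgroup Matrix
open ModularFormClass (qCoeff)

section SelB

variable {O k : Type} [CommRing O] [IsLocalRing O] [IsNoetherianRing O]
    [IsAdicComplete (maximalIdeal O) O] [Field k] [Finite k] {D : RD O k}
    {S : Finset Nat.Primes} {bad : Finset ℕ} {κ : Type} [Finite κ] [Nonempty κ]
    {H : κ → CData D S bad} {hbar : HBar D S}

/-- reindexing the framed primes -/
theorem SelB.reindex {𝒯 𝒯' : Type} [Finite 𝒯] [Finite 𝒯'] {tv : 𝒯 → Nat.Primes}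
    {tv' : 𝒯' → Nat.Primes} (e : 𝒯' ≃ 𝒯) (he : ∀ t, tv' t = tv (e t)) {r : ℕ}
    (h : SelB H hbar r tv) : SelB H hbar r tv' := by
  obtain rfl : tv' = fun t => tv (e t) := funext he
  obtain ⟨Sel, hf, h1, h2⟩ := h
  refine ⟨Sel, hf, fun d hd hT => h1 d hd fun q => ?_, ?_⟩
  · obtain ⟨q', rfl⟩ := e.surjective q
    exact hT q'
  · refine le_trans (le_of_eq ?_) h2
    congr 1
    exact Nat.card_congr (Equiv.piCongrLeft (fun q : 𝒯 =>
      H0 ((plv (tv q) (tv q).2).decompositionSubgroup ℚ) (Ad0 D.rbar (1 : GQ →* k))) e)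

end SelB

section Frob

variable {O k : Type} [CommRing O] [IsLocalRing O] [IsNoetherianRing O]
    [IsAdicComplete (maximalIdeal O) O] [Field k] {D : RD O k}
    {S : Finset Nat.Primes} {bad : Finset ℕ}

/-- the sign of the trace of Frobenius is determined residually -/
theorem t_frob_of_sq (H : CData D S bad) (hbar : HBar D S) (x : H.X) {q : ℕ} (hq : q.Prime)
    {ε : O} (hε : ε ^ 2 = 1) (hsq : H.t x (frv q hq) ^ 2 = ((q : H.P x) + 1) ^ 2)
    (htr : (D.rbar (frv q hq)).trace = D.res (ε * ((q : O) + 1)))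
    (hne : D.res (2 * (ε * ((q : O) + 1))) ≠ 0) :
    H.t x (frv q hq) = algebraMap O _ (ε * ((q : O) + 1)) := by
  have h1 : (H.C hbar).resB ((H.C hbar).t (frv q hq) +
      algebraMap O H.B (ε * ((q : O) + 1))) ≠ 0 := by
    rw [map_add, (H.C hbar).res_t, (H.C hbar).res_comp, ← D.trace_rbar, htr, ← map_add, ← two_mul]
    exact hne
  have h2 := (((H.C hbar).loc _ h1).map (H.ev x)).ne_zero
  rw [map_add, H.ev_C, AlgHom.commutes] at h2
  have h3 : (H.t x (frv q hq) - algebraMap O _ (ε * ((q : O) + 1))) *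
      (H.t x (frv q hq) + algebraMap O _ (ε * ((q : O) + 1))) = 0 := by
    have h4 : algebraMap O (H.P x) (ε * ((q : O) + 1)) ^ 2 = ((q : H.P x) + 1) ^ 2 := by
      rw [← map_pow, mul_pow, hε, one_mul, map_pow, map_add, map_natCast, map_one]
    linear_combination hsq - h4
  exact sub_eq_zero.mp ((mul_eq_zero.mp h3).resolve_right h2)

end Frob

section

variable {W : WeierstrassCurve ℤ} {p : ℕ} [hp : Fact p.Prime]
  {hΔ : W.Δ ≠ 0} {hirr : W.ModRepIsIrreducible p} {hp2 : p ≠ 2}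
  {O : Type} [CommRing O] [IsDomain O] [IsDiscreteValuationRing O]
  [IsAdicComplete (maximalIdeal O) O] [Algebra ℤ_[p] O] [IsLocalHom (algebraMap ℤ_[p] O)]
  [Finite (ResidueField O)] (I : FIn hΔ hirr hp2 O)

include hp in
/-- auxiliary primes -/
theorem _root_.Fermat.Agent.H12.LL.FIn.exists_aux {m n : ℕ} (hm : m ≠ 0) (hn : n ≠ 0) :
    ∃ l : Pr I.D₀, m ∣ (l : ℕ) - 1 ∧ ¬ (l : ℕ) ∣ n ∧
      aW W O I.D₀ l ≠ ((l : ℕ) : ResidueField O) + 1 ∧
      aW W O I.D₀ l ≠ -(((l : ℕ) : ResidueField O) + 1) := by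
  haveI := charP_res p O
  have hm' : p * m ≠ 0 := mul_ne_zero hp.out.ne_zero hm
  obtain ⟨q, hq, hqT, hqm, A, hA, φ, hφ, h1, h4⟩ := exists_prime_of_TWData I.hTW hm'
    (dvd_mul_right _ _) (I.D₀.primeFactors ∪ n.primeFactors ∪ (p * m).primeFactors)
    Finset.subset_union_right
  rw [Finset.mem_union, Finset.mem_union, not_or, not_or] at hqT
  have hqD : ¬ q ∣ I.D₀ := fun h => hqT.1.1 (Nat.mem_primeFactors.mpr ⟨hq, h, I.hD₀⟩)
  have hqn : ¬ q ∣ n := fun h => hqT.1.2 (Nat.mem_primeFactors.mpr ⟨hq, h, hn⟩)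
  have h7 : (RDW hΔ hirr hp2 O).tbar φ = ((W.apOfModel q : ℤ) : ResidueField O) :=
    RDW_tbar_frob hΔ hirr hp2 hq (good_of_Pr I.hΔD₀ ⟨q, hq, hqD⟩)
      (fun h => hqD (by rw [h]; exact I.hpD₀)) hA hφ
  have h9 : ((q : ℕ) : ResidueField O) = 1 := by
    have h10 : p ∣ q - 1 := (dvd_mul_right _ _).trans hqm
    have h11 : ((q - 1 : ℕ) : ResidueField O) = 0 :=
      (CharP.cast_eq_zero_iff (ResidueField O) p _).mpr h10
    rw [Nat.cast_sub hq.one_lt.le, sub_eq_zero] at h11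
    rw [h11, Nat.cast_one]
  rw [RD.trace_rbar, h7] at h4
  refine ⟨⟨q, hq, hqD⟩, (dvd_mul_left _ _).trans hqm, hqn, fun h => h4 ?_, fun h => h4 ?_⟩
  · have h8 : ((W.apOfModel q : ℤ) : ResidueField O) = ((q : ℕ) : ResidueField O) + 1 := h
    rw [h8, h9]; norm_num
  · have h8 : ((W.apOfModel q : ℤ) : ResidueField O) = -(((q : ℕ) : ResidueField O) + 1) := h
    rw [h8, h9]; norm_num

/-- the hypotheses of Ihara's lemma -/
theorem _root_.Fermat.Agent.H12.LL.FIn.rhyp {N : ℕ} [NeZero N] {q : ℕ} (hq : q.Prime)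
    (hND : N * q ∣ I.D₀) : RHyp N q (aW W O I.D₀) where
  hND := hND
  h0 := by
    obtain ⟨l, h1, -, h2, -⟩ := I.exists_aux (m := N * q) (n := 1)
      (mul_ne_zero (NeZero.ne N) hq.ne_zero) one_ne_zero
    refine ⟨l, ?_, h2⟩
    have h3 : ((l : ℕ) : ℤ) - 1 = (((l : ℕ) - 1 : ℕ) : ℤ) := by
      rw [Nat.cast_sub l.2.1.one_lt.le, Nat.cast_one]
    rw [h3]
    exact Int.natCast_dvd_natCast.mpr h1
  h1 := by
    have hq2 : q ^ 2 - 1 ≠ 0 := by
      have := hq.two_le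
      have h4 : 4 ≤ q ^ 2 := by nlinarith
      omega
    obtain ⟨l, -, h1, h2, h3⟩ := I.exists_aux (m := 1) (n := q ^ 2 - 1) one_ne_zero hq2
    refine ⟨l, fun h => h1 ?_, h2, h3⟩
    have h4 : (q : ℤ) ^ 2 - 1 = ((q ^ 2 - 1 : ℕ) : ℤ) := by
      rw [Nat.cast_sub (Nat.one_le_pow _ _ hq.pos)]
      push_cast
      ring
    rw [h4] at h
    exact Int.natCast_dvd_natCast.mp h

/-- the trivial subgroup of diamond operators -/
theorem baseHyp_top {N : ℕ} [NeZero N] (hp2 : p ≠ 2) (hpO : (p : O) ∈ maximalIdeal O)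
    (hell : Ell p N) : BaseHyp O (⊤ : Subgroup (ZMod N)ˣ) p where
  hp2 := hp2
  hpO := hpO
  hΔ₀ := fun x => ⟨0, by
    haveI : Subsingleton ((ZMod N)ˣ ⧸ (⊤ : Subgroup (ZMod N)ˣ)) :=
      QuotientGroup.subsingleton_quotient_top
    exact Subsingleton.elim (α := (ZMod N)ˣ ⧸ (⊤ : Subgroup (ZMod N)ˣ)) _ _⟩
  hell := hell

variable (K : Type) [Field K] [Algebra O K]

/-- **A level of type `Γ₀(N)`**, `N ∣ D₀`. -/
@[reducible] def _root_.Fermat.Agent.H12.LL.FIn.cmpT {N : ℕ} (hN0 : N ≠ 0)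
    (hpO : (p : O) ∈ maximalIdeal O)
    (hell : Ell p N) (hND : N ∣ I.D₀)
    (hd : haveI : NeZero N := ⟨hN0⟩; rk O N (aW W O I.D₀) ≠ 0)
    (hNS : ∀ q : Nat.Primes, (q : ℕ) ∣ N * p → q ∈ I.S) :
    CmpT (I.F K) :=
  haveI : NeZero N := ⟨hN0⟩
  { N := N
    B := baseHyp_top hp2 hpO hell
    hND := hND
    hd := hd
    M := fun n => N * ∏ j, (I.c n).q j
    nzM := fun n => ⟨mul_ne_zero (NeZero.ne N)
      (Finset.prod_ne_zero_iff.mpr fun j _ => ((I.c n).prime j).ne_zero)⟩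
    hM := fun _ => rfl
    hnd := fun n j h => (I.hc n).nd j (h.trans hND)
    T := fun n =>
      haveI : NeZero (N * ∏ j, (I.c n).q j) := ⟨mul_ne_zero (NeZero.ne N)
        (Finset.prod_ne_zero_iff.mpr fun j _ => ((I.c n).prime j).ne_zero)⟩
      I.α_spec n rfl (fun j h => (I.hc n).nd j (h.trans hND)) hND
    hS := fun n q h => by
      rcases (Nat.Prime.dvd_mul q.2).mp h with h | h
      · rcases (Nat.Prime.dvd_mul q.2).mp h with h | h
        · exact Finset.mem_union_left _ (hNS q (h.mul_right p))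
        · obtain ⟨j, -, hj⟩ := (Prime.dvd_finsetProd_iff q.2.prime _).mp h
          refine Finset.mem_union_right _ (Finset.mem_image.mpr ⟨j, Finset.mem_univ j, ?_⟩)
          exact Subtype.ext ((Nat.prime_dvd_prime_iff_eq q.2 ((I.c n).prime j)).mp hj).symm
      · exact Finset.mem_union_left _ (hNS q (h.mul_left N))
    hS₀ := hNS }

variable {K} [CharZero O] [IsAlgClosed K] [FaithfulSMul O K]

/-- the step from `N` to `N q` -/
theorem _root_.Fermat.Agent.H12.LL.FIn.rstep {X X' : CmpT (I.F K)} {q : Nat.Primes}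
    (hN : X'.N = X.N * q) (hqN : ¬ (q : ℕ) ∣ X.N) : RStep X X' q where
  hN := hN
  hqN := hqN
  hR := I.rhyp q.2 (by rw [← hN]; exact X'.hND)

end

end Fermat.Agent.TFin
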