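import Mathlib
import Fermat.Agent.H26.TowA
import Fermat.Agent.TFin.Step1
import Fermat.Agent.TFin.LiftSetup

/-!
# The levels of a tower
-/

set_option autoImplicit false
set_option linter.unusedSectionVars false
set_option linter.style.haveILetI false

noncomputable section

namespace Fermat.Agent.TFin

open Fermat.Agent.TC Fermat.Agent.TW Fermat.Agent.CC Fermat.Agent.H25.GE Fermat.Agent.H25.TR
open Fermat.Agent.Ell Fermat.Agent.H25 Fermat.Agent.H25.PR Fermat.Agent.H25.PT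
open Fermat.Agent.H22 Fermat.Agent.H12.LL
open IsLocalRing CongruenceSubgroup

section enum

/-- an enumeration starting with a given element -/
theorem exists_enum {α : Type} (T : Finset α) (s : α) (hs : s ∈ T) :
    ∃ (m : ℕ) (e : Fin (m + 1) ≃ T), (e 0 : α) = s := by
  classical
  obtain ⟨m, hm⟩ : ∃ m, T.card = m + 1 :=
    ⟨T.card - 1, by have := Finset.card_pos.mpr ⟨s, hs⟩; omega⟩
  let e₀ : Fin (m + 1) ≃ T := (finCongr hm.symm).trans T.equivFin.symm
  refine ⟨m, (Equiv.swap 0 (e₀.symm ⟨s, hs⟩)).trans e₀, ?_⟩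
  rw [Equiv.trans_apply, Equiv.swap_apply_left, Equiv.apply_symm_apply]

end enum

section lev

variable {m : ℕ} (N : ℕ) (tv : Fin m → Nat.Primes) (j₀ : Fin (m + 1))

/-- the primes raised up to step `j` -/
def raisedSet (j : Fin (m + 1)) : Finset (Fin m) :=
  Finset.univ.filter fun t : Fin m => j₀ ≤ t.castSucc ∧ t.castSucc < j

/-- the level at step `j` -/
def towLev (j : Fin (m + 1)) : ℕ := N * ∏ t ∈ raisedSet j₀ j, (tv t : ℕ)

variable {N tv j₀}

theorem mem_raisedSet {j : Fin (m + 1)} {t : Fin m} :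
    t ∈ raisedSet j₀ j ↔ j₀ ≤ t.castSucc ∧ t.castSucc < j := by
  rw [raisedSet, Finset.mem_filter]
  exact ⟨fun h => h.2, fun h => ⟨Finset.mem_univ _, h⟩⟩

theorem raisedSet_start : raisedSet (m := m) j₀ j₀ = ∅ := by
  ext t
  rw [mem_raisedSet]
  simp only [Finset.notMem_empty, iff_false, not_and, not_lt]
  exact fun h => h

theorem towLev_start : towLev N tv j₀ j₀ = N := by
  rw [towLev, raisedSet_start, Finset.prod_empty, mul_one]

theorem dvd_towLev (j : Fin (m + 1)) : N ∣ towLev N tv j₀ j := dvd_mul_right _ _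

theorem towLev_succ (t : Fin m) (ht : j₀ ≤ t.castSucc) :
    towLev N tv j₀ t.succ = towLev N tv j₀ t.castSucc * tv t := by
  have h : raisedSet j₀ t.succ = insert t (raisedSet j₀ t.castSucc) := by
    ext s
    rw [Finset.mem_insert, mem_raisedSet, mem_raisedSet]
    constructor
    · rintro ⟨h1, h2⟩
      have h3 : s ≤ t := Fin.castSucc_lt_succ_iff.mp h2
      rcases eq_or_lt_of_le h3 with h4 | h4
      · exact Or.inl h4
      · exact Or.inr ⟨h1, Fin.castSucc_lt_castSucc_iff.mpr h4⟩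
    · rintro (rfl | ⟨h1, h2⟩)
      · exact ⟨ht, Fin.castSucc_lt_succ⟩
      · exact ⟨h1, h2.trans Fin.castSucc_lt_succ⟩
  have h' : t ∉ raisedSet j₀ t.castSucc := fun h => lt_irrefl _ (mem_raisedSet.mp h).2
  rw [towLev, towLev, h, Finset.prod_insert h', mul_assoc, mul_comm (tv t : ℕ)]

theorem prime_dvd_towLev {j : Fin (m + 1)} {q : ℕ} (hq : q.Prime) (h : q ∣ towLev N tv j₀ j) :
    q ∣ N ∨ ∃ t ∈ raisedSet j₀ j, q = tv t := by
  rcases (Nat.Prime.dvd_mul hq).mp h with h | h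
  · exact Or.inl h
  · obtain ⟨t, ht, h1⟩ := (Prime.dvd_finsetProd_iff hq.prime _).mp h
    exact Or.inr ⟨t, ht, (Nat.prime_dvd_prime_iff_eq hq (tv t).2).mp h1⟩

theorem towLev_ne_zero (hN : N ≠ 0) (j : Fin (m + 1)) : towLev N tv j₀ j ≠ 0 :=
  mul_ne_zero hN (Finset.prod_ne_zero_iff.mpr fun t _ => (tv t).2.ne_zero)

theorem squarefree_towLev (hN : Squarefree N) (hinj : Function.Injective tv)
    (hnd : ∀ t : Fin m, j₀ ≤ t.castSucc → ¬ (tv t : ℕ) ∣ N) (j : Fin (m + 1)) :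
    Squarefree (towLev N tv j₀ j) := by
  classical
  have h1 : ∏ t ∈ raisedSet j₀ j, (tv t : ℕ) = Q0 ((raisedSet j₀ j).image tv) := by
    rw [Q0, Finset.prod_image fun a _ b _ h => hinj h]
  rw [towLev, h1, Nat.squarefree_mul_iff]
  refine ⟨?_, hN, squarefree_Q0 _⟩
  rw [Nat.coprime_comm]
  refine Nat.Coprime.prod_left fun t ht => ?_
  obtain ⟨s, hs, rfl⟩ := Finset.mem_image.mp ht
  exact (Nat.Prime.coprime_iff_not_dvd (tv s).2).mpr (hnd s (mem_raisedSet.mp hs).1)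

/-- a squarefree number divides every number divisible by its prime factors -/
theorem squarefree_dvd {n D : ℕ} (hn : Squarefree n) (h : ∀ q : ℕ, q.Prime → q ∣ n → q ∣ D) :
    n ∣ D := by
  rw [← Nat.prod_primeFactors_of_squarefree hn]
  exact Finset.prod_primes_dvd _ (fun q hq => (Nat.prime_of_mem_primeFactors hq).prime)
    fun q hq => h q (Nat.prime_of_mem_primeFactors hq) (Nat.dvd_of_mem_primeFactors hq)

end lev

section min

variable {W : WeierstrassCurve ℤ} {p : ℕ} [hp : Fact p.Prime] {N : ℕ}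

/-- the enumeration of the primes of the tower -/
theorem MinLevel.exists_enum (hN : MinLevel W p N) (hΔ : W.Δ ≠ 0) :
    ∃ (m : ℕ) (e : Fin m ≃ (unrT W p)) (j₀ : Fin (m + 1)),
      (∀ t : Fin m, t.castSucc < j₀ → ((e t : Nat.Primes) : ℕ) = 2 ∧ 2 ∣ N ∧ p ≠ 3 ∧
        ¬ W.IsResiduallyModularOfLevel p (N / 2)) ∧
      (∀ t : Fin m, j₀ ≤ t.castSucc → ¬ ((e t : Nat.Primes) : ℕ) ∣ N) := by
  classical
  have key : ∀ t ∈ unrT W p, (t : ℕ) ∣ N → (t : ℕ) = 2 ∧ p ≠ 3 ∧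
      ¬ W.IsResiduallyModularOfLevel p (N / 2) := by
    intro t ht h
    obtain ⟨-, h2, h3⟩ := (mem_unrT hΔ hp.out).mp ht
    rcases hN.ram t t.2 h2 h with h4 | ⟨h4, h5, -, h6⟩
    · exact absurd h3 h4
    · exact ⟨h4, h5, h6⟩
  by_cases hs : ∃ t ∈ unrT W p, (t : ℕ) ∣ N
  · obtain ⟨s, hsT, hsN⟩ := hs
    obtain ⟨h1, h2, h3⟩ := key s hsT hsN
    obtain ⟨m, e, he⟩ := TFin.exists_enum (unrT W p) s hsT
    refine ⟨m + 1, e, 1, fun t ht => ?_, fun t ht h => ?_⟩
    · have ht0 : t = 0 := by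
        have h5 : (Fin.castSucc t).val < (1 : Fin (m + 1 + 1)).val := ht
        have h6 : (1 : Fin (m + 1 + 1)).val = 1 := rfl
        rw [h6, Fin.val_castSucc] at h5
        exact Fin.ext (by simpa using h5)
      rw [ht0, he]
      exact ⟨h1, h1 ▸ hsN, h2, h3⟩
    · have h5 := key _ (e t).2 h
      have h6 : e t = e 0 := by
        apply Subtype.ext
        apply Subtype.ext
        rw [h5.1, he, h1]
      have h7 := e.injective h6
      rw [h7] at ht
      have h8 : (1 : Fin (m + 1 + 1)).val ≤ (Fin.castSucc (0 : Fin (m + 1))).val := ht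
      simp at h8
  · push Not at hs
    refine ⟨(unrT W p).card, (unrT W p).equivFin.symm, 0, fun t ht => ?_, fun t _ => ?_⟩
    · exact absurd ht (not_lt_of_ge (Fin.zero_le _))
    · exact hs _ ((unrT W p).equivFin.symm t).2

end min

section tow

variable {W : WeierstrassCurve ℤ} {p : ℕ} [hp : Fact p.Prime]
  {hΔ : W.Δ ≠ 0} {hirr : W.ModRepIsIrreducible p} {hp2 : p ≠ 2}
  {O : Type} [CommRing O] [IsDomain O] [IsDiscreteValuationRing O]
  [IsAdicComplete (maximalIdeal O) O] [Algebra ℤ_[p] O] [IsLocalHom (algebraMap ℤ_[p] O)]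
  [Finite (ResidueField O)] [CharZero O] (I : FIn hΔ hirr hp2 O)
  (K : Type) [Field K] [Algebra O K]

/-- levels of type `Γ₀` from residual modularity -/
theorem _root_.Fermat.Agent.H12.LL.FIn.exists_cmpT (hpO : (p : O) ∈ maximalIdeal O) {N : ℕ}
    (hN0 : N ≠ 0) (hell : Ell p N) (hND : N ∣ I.D₀) (hRM : W.IsResiduallyModularOfLevel p N)
    (hNS : ∀ q : Nat.Primes, (q : ℕ) ∣ N * p → q ∈ I.S) : ∃ X : CmpT (I.F K), X.N = N := by
  haveI : NeZero N := ⟨hN0⟩
  exact ⟨I.cmpT K hN0 hpO hell hND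
    (rk_ne_zero (ne_of_rm (O := O) I.hD₀ I.hpD₀ I.hΔD₀ hND hRM)) hNS, rfl⟩

/-- **A tower of levels** over the level `N`. -/
structure Tow (N : ℕ) where
  m : ℕ
  e : Fin m ≃ (unrT W p)
  j₀ : Fin (m + 1)
  X : Fin (m + 1) → CmpT (I.F K)
  start : (X j₀).N = N
  dvd : ∀ j, N ∣ (X j).N
  sq : ∀ j, Squarefree (X j).N
  step : ∀ t : Fin m, j₀ ≤ t.castSucc →
    (X t.succ).N = (X t.castSucc).N * ((e t : Nat.Primes) : ℕ) ∧
      ¬ ((e t : Nat.Primes) : ℕ) ∣ (X t.castSucc).N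
  pN : ∀ j, p ∣ (X j).N ↔ p ∣ N
  disc : ∀ (j : Fin (m + 1)) (q : ℕ), q.Prime → q ∣ (X j).N → (q : ℤ) ∣ W.Δ
  rm : ∀ j, W.IsResiduallyModularOfLevel p (X j).N
  ell : ∀ j, Ell p (X j).N
  stuck : ∀ t : Fin m, t.castSucc < j₀ → ((e t : Nat.Primes) : ℕ) = 2 ∧ 2 ∣ N ∧ p ≠ 3 ∧
        ¬ W.IsResiduallyModularOfLevel p (N / 2)

variable {I K}

namespace Tow

variable {N : ℕ} (Tw : Tow I K N)

/-- the framed primes -/
def tv (t : Fin Tw.m) : Nat.Primes := Tw.e t

theorem tv_mem (t : Fin Tw.m) : Tw.tv t ∈ unrT W p := (Tw.e t).2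

include hΔ in
theorem tv_ne (t : Fin Tw.m) : (Tw.tv t : ℕ) ≠ p := ((mem_unrT hΔ hp.out).mp (Tw.tv_mem t)).2.1

include hΔ in
theorem tv_dvd (t : Fin Tw.m) : ((Tw.tv t : ℕ) : ℤ) ∣ W.Δ :=
  ((mem_unrT hΔ hp.out).mp (Tw.tv_mem t)).1

include hΔ in
theorem tv_unr (t : Fin Tw.m) : UnrAt W p (Tw.tv t) :=
  ((mem_unrT hΔ hp.out).mp (Tw.tv_mem t)).2.2

end Tow

variable (I K) in
include hΔ hirr in
/-- **Existence of the tower.** -/
theorem MinLevel.exists_tow (hpO : (p : O) ∈ maximalIdeal O) (hIS : I.S = bigS W p)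
    (hID : I.D₀ = p * W.Δ.natAbs) {N : ℕ} (hN : MinLevel W p N) : Nonempty (Tow I K N) := by
  classical
  obtain ⟨m, e, j₀, h1, h2⟩ := hN.exists_enum hΔ
  have hN0 : N ≠ 0 := hN.sq.ne_zero
  let tv : Fin m → Nat.Primes := fun t => (e t : Nat.Primes)
  have hinj : Function.Injective tv := fun a b h => e.injective (Subtype.ext h)
  have hT : ∀ t, ((tv t : ℕ) : ℤ) ∣ W.Δ ∧ (tv t : ℕ) ≠ p ∧ UnrAt W p (tv t) := fun t =>
    (mem_unrT hΔ hp.out).mp (e t).2
  have hL0 : ∀ j, towLev N tv j₀ j ≠ 0 := fun j => towLev_ne_zero hN0 j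
  have hdisc : ∀ (j : Fin (m + 1)) (q : ℕ), q.Prime → q ∣ towLev N tv j₀ j →
      (q : ℤ) ∣ W.Δ := by
    intro j q hq h
    rcases prime_dvd_towLev hq h with h | ⟨t, -, rfl⟩
    · exact hN.dvd_disc q hq h
    · exact (hT t).1
  have hsq : ∀ j, Squarefree (towLev N tv j₀ j) := fun j => squarefree_towLev hN.sq hinj h2 j
  have hrm : ∀ j, W.IsResiduallyModularOfLevel p (towLev N tv j₀ j) := fun j =>
    H18R.isResiduallyModular_mono hΔ hirr hN.rm (dvd_towLev j) (hL0 j)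
  have hell : ∀ j, Ell p (towLev N tv j₀ j) := by
    intro j
    rcases hN.two with h | ⟨h, -⟩
    · by_cases hp3 : p = 3
      · exact Fermat.Agent.H24R.ell_of_even (h.trans (dvd_towLev j))
      · exact Or.inl hp3
    · exact Or.inl h
  have hX : ∀ j, ∃ X : CmpT (I.F K), X.N = towLev N tv j₀ j := by
    intro j
    refine I.exists_cmpT K hpO (hL0 j) (hell j) ?_ (hrm j) fun q hq => ?_
    · rw [hID]
      exact squarefree_dvd (hsq j) fun q hq h => (Int.natCast_dvd.mp (hdisc j q hq h)).mul_left _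
    · rw [hIS, mem_bigS hΔ hp.out]
      rcases (Nat.Prime.dvd_mul q.2).mp hq with h | h
      · exact Or.inr (hdisc j q q.2 h)
      · exact Or.inl ((Nat.prime_dvd_prime_iff_eq q.2 hp.out).mp h)
  choose X hXN using hX
  exact ⟨{
    m := m
    e := e
    j₀ := j₀
    X := X
    start := by rw [hXN, towLev_start]
    dvd := fun j => by rw [hXN]; exact dvd_towLev j
    sq := fun j => by rw [hXN]; exact hsq j
    step := fun t ht => by
      rw [hXN, hXN]
      refine ⟨towLev_succ t ht, fun h => ?_⟩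
      rcases prime_dvd_towLev (tv t).2 h with h | ⟨s, hs, h⟩
      · exact h2 t ht h
      · have h3 : t = s := hinj (Subtype.ext h)
        rw [← h3] at hs
        exact lt_irrefl _ (mem_raisedSet.mp hs).2
    pN := fun j => by
      rw [hXN]
      refine ⟨fun h => ?_, fun h => h.trans (dvd_towLev j)⟩
      rcases prime_dvd_towLev hp.out h with h | ⟨s, -, h⟩
      · exact h
      · exact absurd h.symm (hT s).2.1
    disc := fun j q hq h => hdisc j q hq (by rw [← hXN]; exact h)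
    rm := fun j => by rw [hXN]; exact hrm j
    ell := fun j => by rw [hXN]; exact hell j
    stuck := h1 }⟩

namespace Tow

variable {N : ℕ} (Tw : Tow I K N) [IsAlgClosed K] [FaithfulSMul O K]

/-- the points of the levels of the tower are new at the stuck prime -/
theorem hst (hnew : NewP W p 2) (hsqN : Squarefree N) (t : Fin Tw.m) (ht : t.castSucc < Tw.j₀) :
    ¬ p ∣ 2 * ((Tw.tv t : ℕ) + 1) ∧
      ∀ (n : ℕ) (x : ((Tw.X Tw.j₀).toCmp.cd 1 n).X),
        (Tw.tv t : ℕ) ∣ (Tw.X Tw.j₀).toCmp.lvl 1 n x := by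
  obtain ⟨h2, ⟨c, hc⟩, hp3, hn⟩ := Tw.stuck t ht
  have h2' : (Tw.tv t : ℕ) = 2 := h2
  rw [hc, Nat.mul_div_cancel_left c two_pos] at hn
  have hc0 : c ≠ 0 := by
    rintro rfl
    exact hsqN.ne_zero (by rw [hc, mul_zero])
  haveI : NeZero c := ⟨hc0⟩
  rw [h2']
  constructor
  · intro h
    have h3 : p ∣ 2 * 3 := h
    rcases (Nat.Prime.dvd_mul hp.out).mp h3 with h | h
    · exact hp2 ((Nat.prime_dvd_prime_iff_eq hp.out Nat.prime_two).mp h)
    · exact hp3 ((Nat.prime_dvd_prime_iff_eq hp.out Nat.prime_three).mp h)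
  · intro n x
    have hXN : (Tw.X Tw.j₀).N = c * 2 := by rw [Tw.start, hc, mul_comm]
    refine hnew hΔ hirr hp2 O K I (Tw.X Tw.j₀).toCmp 1 n c hXN ?_ ?_ (Or.inl hp3) ?_ x
    · intro h
      have h5 : 2 * 2 ∣ N := by rw [hc]; exact mul_dvd_mul_left 2 h
      exact Nat.prime_two.not_isUnit (hsqN _ h5)
    · exact fun h => absurd (Nat.dvd_one.mp h) (by norm_num)
    · by_contra hne
      have hd : c ∣ I.D₀ := (Dvd.intro _ hXN.symm).trans (Tw.X Tw.j₀).hND
      exact hn (I.rm_of_ne n (N := c) hd dvd_rfl hne)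

/-- no square divides the levels of the points -/
theorem not_sq_dvd_lvl (j : Fin (Tw.m + 1)) (n : ℕ) (x : ((Tw.X j).toCmp.cd 1 n).X) {q : ℕ}
    (hq : q.Prime) (hqD : q ∣ I.D₀) : ¬ q * q ∣ (Tw.X j).toCmp.lvl 1 n x :=
  (Tw.X j).not_sq_dvd_lvl n x hq (fun h => hq.not_isUnit (Tw.sq j q h)) hqD

/-- the levels of the points in the two modes at `p` -/
theorem lvOk {b : Prop} (hbN : p ∣ N ↔ b) (hnew : NewP W p p) (hS : p ∣ N → ModeS W p)
    (h2N : p = 3 → 2 ∣ N) (j : Fin (Tw.m + 1)) (n : ℕ)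
    (x : ((Tw.X j).toCmp.cd 1 n).X) : LvOk p b ∅ ((Tw.X j).toCmp.lvl 1 n x) := by
  refine ⟨Tw.not_sq_dvd_lvl j n x hp.out I.hpD₀, fun hb => ?_, fun hb => ?_,
    fun q hq => absurd hq (Finset.notMem_empty q)⟩
  · refine (Tw.X j).not_dvd_lvl n x hp.out (fun h => hb (hbN.mp ?_)) I.hpD₀
    exact (Tw.pN j).mp h
  · have hpN : p ∣ N := hbN.mpr hb
    have hpX : p ∣ (Tw.X j).N := (Tw.pN j).mpr hpN
    have h1 := (hS hpN).not_rm hΔ hirr hp2 (Tw.sq j) hpX (K := 1)
      (by rw [one_mul]; exact Tw.sq j)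
    rw [one_mul] at h1
    obtain ⟨c, hc⟩ := hpX
    rw [hc, Nat.mul_div_cancel_left c hp.out.pos] at h1
    have hc0 : c ≠ 0 := by
      rintro rfl
      exact (Tw.sq j).ne_zero (by rw [hc, mul_zero])
    haveI : NeZero c := ⟨hc0⟩
    have hXN : (Tw.X j).N = c * p := by rw [hc, mul_comm]
    refine hnew hΔ hirr hp2 O K I (Tw.X j).toCmp 1 n c hXN ?_ ?_ ?_ ?_ x
    · intro h
      have h5 : p * p ∣ (Tw.X j).N := by rw [hc]; exact mul_dvd_mul_left p h
      exact hp.out.not_isUnit (Tw.sq j _ h5)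
    · exact fun h => hp.out.one_lt.ne' (Nat.dvd_one.mp h)
    · by_cases hp3 : p = 3
      · refine Fermat.Agent.H24R.ell_of_even ?_
        have h2 : 2 ∣ p * c := by rw [← hc]; exact (h2N hp3).trans (Tw.dvd j)
        refine ((Nat.Prime.dvd_mul Nat.prime_two).mp h2).resolve_left fun h => ?_
        exact hp2 ((Nat.prime_dvd_prime_iff_eq Nat.prime_two hp.out).mp h).symm
      · exact Or.inl hp3
    · by_contra hne
      have hd : c ∣ I.D₀ := (Dvd.intro _ hXN.symm).trans (Tw.X j).hND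
      exact h1 (I.rm_of_ne n (N := c) hd dvd_rfl hne)

end Tow

end tow

end Fermat.Agent.TFin
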