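import Mathlib
import Fermat.Agent.H26.TowA
import Fermat.Agent.TFin.WComp
import Fermat.Agent.TFin.LiftTop

/-!
# The towers in the modes `F` and `S`
-/

set_option autoImplicit false
set_option linter.unusedSectionVars false
set_option linter.style.haveILetI false

noncomputable section

namespace Fermat.Agent.TFin

open Fermat.Agent.TC Fermat.Agent.TW Fermat.Agent.CC Fermat.Agent.H25.GE Fermat.Agent.H25.TR
open Fermat.Agent.Ell Fermat.Agent.H25 Fermat.Agent.H25.PR Fermat.Agent.H25.PT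
open Fermat.Agent.H22 Fermat.Agent.H12.LL
open IsLocalRing CongruenceSubgroup Matrix
open ModularFormClass (qCoeff)

section

variable {W : WeierstrassCurve ℤ} {p : ℕ} [hp : Fact p.Prime]
  {hΔ : W.Δ ≠ 0} {hirr : W.ModRepIsIrreducible p} {hp2 : p ≠ 2}
  {O : Type} [CommRing O] [IsDomain O] [IsDiscreteValuationRing O]
  [IsAdicComplete (maximalIdeal O) O] [Algebra ℤ_[p] O] [IsLocalHom (algebraMap ℤ_[p] O)]
  [Finite (ResidueField O)] (I : FIn hΔ hirr hp2 O)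

/-- the good primes -/
theorem good_of_notMem {D : ℕ} (hD : D ≠ 0) (hpD : p ∣ D)
    (hΔD : ∀ q : ℕ, q.Prime → (q : ℤ) ∣ W.Δ → q ∣ D) (ℓ : ℕ) (hℓ : ℓ.Prime)
    (h : ℓ ∉ (D * p).primeFactors) : ℓ ≠ p ∧ W.IsGoodPrimeFor ℓ := by
  have hDp : D * p ≠ 0 := mul_ne_zero hD hp.out.ne_zero
  refine ⟨fun h1 => h (Nat.mem_primeFactors.mpr ⟨hℓ, ?_, hDp⟩), fun h1 =>
    h (Nat.mem_primeFactors.mpr ⟨hℓ, (hΔD ℓ hℓ h1).mul_right _, hDp⟩)⟩
  rw [h1]; exact dvd_mul_left _ _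

variable (K : Type) [Field K] [Algebra O K]

/-- **The component of the curve.** -/
def _root_.Fermat.Agent.H12.LL.FIn.EW
    (hSg : ∀ q : Nat.Primes, q ∉ I.S → (q : ℕ) ≠ p ∧ W.IsGoodPrimeFor q) :
    Extra (I.F K) Unit where
  H n _ := WC hΔ hirr hp2 O (I.Sn n) (I.Dn n * p).primeFactors
    (fun q hq => hSg q fun h => hq (Finset.mem_union_left _ h))
    (good_of_notMem (I.Dn_ne n) (I.hpD₀.trans (I.dvd_Dn n))
      fun q hq h => (I.hΔD₀ q hq h).trans (I.dvd_Dn n))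
  H₀ _ := WC hΔ hirr hp2 O I.S (I.D₀ * p).primeFactors hSg
    (good_of_notMem I.hD₀ I.hpD₀ I.hΔD₀)
  πB n _ := AlgHom.id O O
  hπB n _ ℓ _ _ := rfl

variable {K} [CharZero O] [IsAlgClosed K] [FaithfulSMul O K]

/-- **The end of the tower.** -/
theorem finOut_of_point (X : CmpT (I.F K)) (hsq : Squarefree X.N)
    (y : (X.toCmp.cd₀ 1).X)
    (hy : ∀ g, (X.toCmp.cd₀ 1).t y g = algebraMap O _ (tW W p O g)) : FinOut W := by
  haveI : CharZero K := charZero_of_injective_algebraMap (FaithfulSMul.algebraMap_injective O K)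
  refine ⟨X.N, hsq, X.toCmp.lvl₀ 1 y, (X.toCmp.P₀ 1).nz y, X.toCmp.nf₀ 1 y,
    (X.toCmp.P₀ 1).hg y, X.lvl₀_dvd y, K, inferInstance, inferInstance, (X.toCmp.P₀ 1).τ y,
    I.D₀, I.hD₀, fun ℓ hℓ hℓD => ?_⟩
  obtain ⟨z, hz1, hz2⟩ := (X.toCmp.P₀ 1).hcoef y ⟨ℓ, hℓ, hℓD⟩
  refine ⟨z, hz1, hz2.trans ?_⟩
  have hgood : W.IsGoodPrimeFor ℓ := fun h => hℓD (I.hΔD₀ ℓ hℓ h)
  have hℓp : ℓ ≠ p := fun h => hℓD (by rw [h]; exact I.hpD₀)
  have hb : ℓ ∉ (I.D₀ * p).primeFactors := fun h => by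
    rcases (Nat.Prime.dvd_mul hℓ).mp (Nat.mem_primeFactors.mp h).2.1 with h | h
    · exact hℓD h
    · exact hℓp ((Nat.prime_dvd_prime_iff_eq hℓ hp.out).mp h)
  have h1 := (X.toCmp.cd₀ 1).frob ℓ hℓ hb (plv ℓ hℓ) (plv_over ℓ hℓ) (frv ℓ hℓ)
    (frv_spec ℓ hℓ) y
  rw [hy] at h1
  have h2 : tW W p O (frv ℓ hℓ) = ((W.apOfModel ℓ : ℤ) : O) := by
    have h := zRep_trace_frob hΔ hirr hℓ hgood hℓp (plv_over ℓ hℓ) (frv_spec ℓ hℓ)
    have h3 : LinearMap.trace ℤ_[p] (TT (WQ W) p) (rr (WQ W) p (frv ℓ hℓ)) =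
      (W.apOfModel ℓ : ℤ_[p]) := h
    rw [tW, h3, map_intCast]
  rw [h2, map_intCast] at h1
  have h3 := (X.toCmp.hin₀ 1).e_evQ X.B.hpO I.Ge y ((X.toCmp.cd₀ 1).T ℓ)
  have h4 : (X.toCmp.hin₀ 1).evQ X.B.hpO I.Ge y ((X.toCmp.cd₀ 1).T ℓ) =
      ((W.apOfModel ℓ : ℤ) : _) := h1.symm
  rw [h4, map_intCast] at h3
  have h5 : (X.toCmp.cd₀ 1).T ℓ = MoT0 (⊤ : Subgroup (ZMod X.N)ˣ) O (I.F K).a 1 ⟨ℓ, hℓ, hℓD⟩ :=
    X.toCmp.cd₀_T 1 ⟨ℓ, hℓ, hℓD⟩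
  rw [h5] at h3
  exact h3.symm

/-- **The tower.** -/
theorem _root_.Fermat.Agent.H12.LL.FIn.tower (hss : W.IsSemistableModel)
    (hSg : ∀ q : Nat.Primes, q ∉ I.S → (q : ℕ) ≠ p ∧ W.IsGoodPrimeFor q)
    {m : ℕ} {tv : Fin m → Nat.Primes} (htp : ∀ t, (tv t : ℕ) ≠ p)
    (htΔ : ∀ t, ((tv t : ℕ) : ℤ) ∣ W.Δ) (htu : ∀ t, UnrAt W p (tv t))
    (X : Fin (m + 1) → CmpT (I.F K)) (j₀ : Fin (m + 1))
    (hstep : ∀ t : Fin m, j₀ ≤ t.castSucc →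
      (X t.succ).N = (X t.castSucc).N * tv t ∧ ¬ (tv t : ℕ) ∣ (X t.castSucc).N)
    (hsq : Squarefree (X (Fin.last m)).N) (hsq₀ : Squarefree (X j₀).N)
    (hst : ∀ t : Fin m, t.castSucc < j₀ → ¬ p ∣ 2 * ((tv t : ℕ) + 1) ∧
      ∀ (n : ℕ) (x : ((X j₀).toCmp.cd 1 n).X), (tv t : ℕ) ∣ (X j₀).toCmp.lvl 1 n x)
    (hSel : ∀ n, SelB ((sysT X (I.EW K hSg)).H n) ((sysT X (I.EW K hSg)).hbar n) I.r tv) :
    FinOut W := by
  classical
  haveI := charP_res p O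
  obtain ⟨ϖ, hϖ⟩ := (IsPrincipalIdealRing.principal (maximalIdeal O)).principal
  have hϖ' : maximalIdeal O = Ideal.span {ϖ} := hϖ
  have hϖ0 : ϖ ≠ 0 := by
    rintro rfl
    rw [Ideal.span_singleton_eq_bot.mpr rfl] at hϖ'
    exact IsDiscreteValuationRing.not_isField O
      ((IsLocalRing.isField_iff_maximalIdeal_eq).mpr hϖ')
  have hT : FrD (I.F K).D p tv := RDW_FrD hΔ hirr hp2 tv (fun t => (htp t).symm) htu
  -- signs
  have hε : ∀ t, ∃ ε : O, ε ^ 2 = 1 ∧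
      tW W p O (frv (tv t) (tv t).2) = ε * (((tv t : ℕ) : O) + 1) := by
    intro t
    obtain ⟨ε, h1, h2⟩ := tW_frob_mult (O := O) hΔ hirr (tv t).2 (htp t) (htΔ t)
      (hss _ (tv t).2 (htΔ t)) (plv_over _ (tv t).2) (frv_spec _ (tv t).2)
    refine ⟨ε, ?_, h2⟩
    rcases h1 with rfl | rfl
    · ring
    · ring
  choose ε hε1 hε2 using hε
  have htr : ∀ t, ((RDW hΔ hirr hp2 O).rbar (frv (tv t) (tv t).2)).trace =
      (RDW hΔ hirr hp2 O).res (ε t * (((tv t : ℕ) : O) + 1)) := by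
    intro t
    rw [RD.trace_rbar, RDW_tbar, ← hε2, RDW_res]
    rfl
  have hD₀ : ∀ t, (tv t : ℕ) ∣ I.D₀ := fun t => I.hΔD₀ _ (tv t).2 (htΔ t)
  have hnsq : ∀ {N : ℕ}, Squarefree N → ∀ q : ℕ, q.Prime → ¬ q * q ∣ N :=
    fun hN q hq h => hq.not_isUnit (hN q h)
  obtain ⟨y, hy⟩ := liftT (I.EW K hSg) X hϖ' hϖ0 hT ε hε1 htr (fun n j => (I.hc n).le j) hSel j₀
    (fun t h => I.rstep (hstep t h).1 (hstep t h).2) (fun t h => rin _ (htp t)) hD₀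
    (fun t => hnsq hsq _ (tv t).2)
    (fun ℓ hℓ h => by
      rcases (Nat.Prime.dvd_mul hℓ).mp (Nat.mem_primeFactors.mp h).2.1 with h | h
      · exact h
      · rw [(Nat.prime_dvd_prime_iff_eq hℓ hp.out).mp h]; exact I.hpD₀)
    (fun n t ht x => by
      obtain ⟨h1, h2⟩ := hst t ht
      refine t_frob_of_sq ((X j₀).toCmp.cd 1 n) ((I.F K).hbar n) x (tv t).2 (hε1 t) ?_ (htr t) ?_
      · exact hin_sq (X j₀).B.hpO I.Ge (RDW_isCyc hΔ hirr hp2) (RDW_hc hΔ hirr hp2)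
          ((X j₀).toCmp.hin 1 n) x (tv t).2 (htp t) (h2 n x)
          ((X j₀).not_sq_dvd_lvl n x (tv t).2 (hnsq hsq₀ _ (tv t).2) (hD₀ t))
          (plv_over _ (tv t).2) (frv_spec _ (tv t).2)
      · intro h0
        apply h1
        rw [← CharP.cast_eq_zero_iff (ResidueField O) p]
        have h3 : (RDW hΔ hirr hp2 O).res (ε t) ^ 2 = 1 := by
          rw [← map_pow, hε1, map_one]
        have h4 : (RDW hΔ hirr hp2 O).res (2 * (ε t * (((tv t : ℕ) : O) + 1))) =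
            (RDW hΔ hirr hp2 O).res (ε t) * ((2 * ((tv t : ℕ) + 1) : ℕ) : ResidueField O) := by
          simp only [map_mul, map_add, map_one, map_ofNat, map_natCast, Nat.cast_mul,
            Nat.cast_add, Nat.cast_one, Nat.cast_ofNat]
          ring
        rw [h4] at h0
        rcases mul_eq_zero.mp h0 with h5 | h5
        · rw [h5] at h3
          norm_num at h3
        · exact h5)
    () (AlgHom.id O O) (tW W p O)
    (fun g => ((I.EW K hSg).H₀ ()).ev_C (I.F K).hbar₀ g ())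
    (fun t => tW_inertia hΔ hirr (tv t).2 (htp t) (hss _ (tv t).2) (plv_over _ (tv t).2)
      (tmv_spec p _ (tv t) (tv t).2).2.1) hε2
  exact finOut_of_point I (X (Fin.last m)) hsq y hy

end

end Fermat.Agent.TFin
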