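import Mathlib
import Fermat.Agent.H12.LL.LLmain
import Fermat.Agent.TFin.WComp

/-!
# The local input at `p` for the towers
-/

set_option autoImplicit false
set_option linter.unusedSectionVars false
set_option linter.style.haveILetI false

noncomputable section

namespace Fermat.Agent.TFin

open Fermat.Agent.TC Fermat.Agent.TW Fermat.Agent.CC Fermat.Agent.H25.GE Fermat.Agent.H25.TR
open Fermat.Agent.Ell Fermat.Agent.H25 Fermat.Agent.H25.PR Fermat.Agent.H25.PT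
open Fermat.Agent.H22 Fermat.Agent.H12.LL
open IsLocalRing CongruenceSubgroup Matrix

/-- The input in mode `b` at `p` (`False`: levels prime to `p`; `True`: levels divisible by `p`
exactly once); the condition at `p` holds also for the component of the curve. -/
def ModeW (W : WeierstrassCurve ℤ) (p : ℕ) [hp : Fact p.Prime] (b : Prop) : Prop :=
  ∀ (hΔ : W.Δ ≠ 0) (hirr : W.ModRepIsIrreducible p) (hp2 : p ≠ 2)
    (O : Type) [CommRing O] [IsDomain O] [IsDiscreteValuationRing O]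
    [IsAdicComplete (maximalIdeal O) O] [Finite (ResidueField O)] [CharZero O] [Algebra ℤ_[p] O]
    [IsLocalHom (algebraMap ℤ_[p] O)]
    (K : Type) [Field K] [IsAlgClosed K] [Algebra O K] [FaithfulSMul O K]
    (ζ : ResidueField O), IsPrimitiveRoot ζ (p ^ 2 - 1) → ∀ (hpO : (p : O) ∈ maximalIdeal O)
    (Ge : Geo p) (S T : Finset Nat.Primes), T ⊆ S →
    (∀ q : Nat.Primes, q ∉ S → UnrAt W p q) →
    (⟨p, hp.out⟩ : Nat.Primes) ∈ S → (∀ t ∈ T, (t : ℕ) ≠ p ∧ UnrAt W p t) →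
    (∀ q ∈ S, q ∉ T → (q : ℕ) ≠ p → ¬ UnrAt W p q) →
    TWData p S (RDW hΔ hirr hp2 O).rbar (chiB hΔ hirr hp2 O) →
    ∃ Pc : ∀ {S' : Finset Nat.Primes} {bad : Finset ℕ},
        CData (RDW hΔ hirr hp2 O) S' bad → Prop,
      (∀ {S' : Finset Nat.Primes} {bad : Finset ℕ} (H : HIn (RDW hΔ hirr hp2 O) K p S' bad),
        (∀ x, LvOk p b ∅ (H.np x).N0) →
        Pc (H.cd hpO Ge (RDW_isCyc hΔ hirr hp2) (RDW_hc hΔ hirr hp2))) ∧
      (∀ {S' : Finset Nat.Primes} {bad : Finset ℕ}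
        (hS : ∀ q : Nat.Primes, q ∉ S' → (q : ℕ) ≠ p ∧ W.IsGoodPrimeFor q)
        (hbad : ∀ ℓ : ℕ, ℓ.Prime → ℓ ∉ bad → ℓ ≠ p ∧ W.IsGoodPrimeFor ℓ),
        Pc (WC hΔ hirr hp2 O S' bad hS hbad)) ∧
      ∃ r : ℕ, ∀ n D₀ : ℕ, n ≠ 0 → D₀ ≠ 0 → ∃ qv : Fin r → Nat.Primes,
        Function.Injective qv ∧ (∀ j, ¬ (qv j : ℕ) ∣ D₀) ∧ (∀ j, qv j ∉ S) ∧
        (∀ j, TWData.IsTW p n (RDW hΔ hirr hp2 O).rbar (chiB hΔ hirr hp2 O) (qv j)) ∧
        SelOut (RDW hΔ hirr hp2 O) p Pc S T r qv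

end Fermat.Agent.TFin
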