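import Mathlib
import Fermat.Agent.H26.TowB
import Fermat.Agent.H26.Tower
import Fermat.Agent.H26.ModeW

/-!
# The output of the towers in the modes `F` and `S`
-/

set_option autoImplicit false
set_option linter.unusedSectionVars false
set_option linter.style.haveILetI false

noncomputable section

namespace Fermat.Agent.TFin

open Fermat.Agent.TC Fermat.Agent.TW Fermat.Agent.CC Fermat.Agent.H25.GE Fermat.Agent.H25.TR
open Fermat.Agent.Ell Fermat.Agent.H25 Fermat.Agent.H25.PR Fermat.Agent.H25.PT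
open Fermat.Agent.H22 Fermat.Agent.H12.LL
open IsLocalRing CongruenceSubgroup Matrix

section

variable {W : WeierstrassCurve ℤ} {p : ℕ} [hp : Fact p.Prime]

/-- **The base data attached to a semistable curve**, for a given mode at `p`. -/
theorem exists_setupW {b : Prop} (hΔ : W.Δ ≠ 0) (hss : W.IsSemistableModel)
    (hirr : W.ModRepIsIrreducible p) (hp2 : p ≠ 2) (G : Geo p) (hmode : ModeW W p b) :
    ∃ (O : Type) (_ : CommRing O) (_ : IsDomain O) (_ : IsDiscreteValuationRing O)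
      (_ : IsAdicComplete (maximalIdeal O) O) (_ : Finite (ResidueField O)) (_ : CharZero O)
      (_ : Algebra ℤ_[p] O) (_ : IsLocalHom (algebraMap ℤ_[p] O)) (K : Type) (_ : Field K)
      (_ : IsAlgClosed K) (_ : Algebra O K) (_ : FaithfulSMul O K)
      (hpO : (p : O) ∈ maximalIdeal O) (I : FIn hΔ hirr hp2 O), I.S = bigS W p ∧
        I.D₀ = p * W.Δ.natAbs ∧
      ∃ Pc : ∀ {S' : Finset Nat.Primes} {bad : Finset ℕ},
        CData (RDW hΔ hirr hp2 O) S' bad → Prop,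
      (∀ {S' : Finset Nat.Primes} {bad : Finset ℕ} (H : HIn (RDW hΔ hirr hp2 O) K p S' bad),
        (∀ x, LvOk p b ∅ (H.np x).N0) →
        Pc (H.cd hpO I.Ge (RDW_isCyc hΔ hirr hp2) (RDW_hc hΔ hirr hp2))) ∧
      (∀ {S' : Finset Nat.Primes} {bad : Finset ℕ}
        (hS : ∀ q : Nat.Primes, q ∉ S' → (q : ℕ) ≠ p ∧ W.IsGoodPrimeFor q)
        (hbad : ∀ ℓ : ℕ, ℓ.Prime → ℓ ∉ bad → ℓ ≠ p ∧ W.IsGoodPrimeFor ℓ),
        Pc (WC hΔ hirr hp2 O S' bad hS hbad)) ∧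
      ∀ n, SelOut (RDW hΔ hirr hp2 O) p Pc I.S (unrT W p) I.r
        (fun j => ⟨(I.c n).q j, (I.c n).prime j⟩) := by
  classical
  have hp0 := hp.out
  have hpp : p ^ 2 - 1 ≠ 0 := by
    have h1 : 2 ≤ p := hp0.two_le
    have h2 : 4 ≤ p ^ 2 := by nlinarith
    omega
  obtain ⟨O, i1, i2, i3, i4, i5, i6, i7, i8, i9, hinj, ω, hω⟩ := exists_coeff p _ hpp
  have hpO : (p : O) ∈ maximalIdeal O := p_mem_maxO O
  have hu : IsUnit ((p ^ 2 - 1 : ℕ) : O) := by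
    by_contra hnu
    have h1 : ((p ^ 2 - 1 : ℕ) : O) ∈ maximalIdeal O := (mem_maximalIdeal _).mpr hnu
    have h2 : ((p ^ 2 : ℕ) : O) ∈ maximalIdeal O := by
      rw [Nat.cast_pow, pow_two]
      exact Ideal.mul_mem_left _ _ hpO
    have h3 : (1 : O) = ((p ^ 2 : ℕ) : O) - ((p ^ 2 - 1 : ℕ) : O) := by
      rw [← Nat.cast_sub (Nat.sub_le _ _)]
      have : p ^ 2 - (p ^ 2 - 1) = 1 := by omega
      rw [this, Nat.cast_one]
    have h4 : (1 : O) ∈ maximalIdeal O := by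
      rw [h3]; exact sub_mem h2 h1
    exact (Ideal.ne_top_iff_one _).mp (maximalIdeal.isMaximal O).ne_top h4
  have hζ := isPrimitiveRoot_residue hu hω
  let K := AlgebraicClosure (FractionRing O)
  haveI hK : FaithfulSMul O K := (faithfulSMul_iff_algebraMap_injective _ _).mpr (by
    rw [IsScalarTower.algebraMap_eq O (FractionRing O) K]
    exact (algebraMap (FractionRing O) K).injective.comp (IsFractionRing.injective O _))
  -- the primes
  have hpS : (⟨p, hp.out⟩ : Nat.Primes) ∈ bigS W p := (mem_bigS hΔ hp0).mpr (Or.inl rfl)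
  have hSunr : ∀ q : Nat.Primes, q ∉ bigS W p → UnrAt W p q := fun q hq => by
    rw [mem_bigS hΔ hp0, not_or] at hq
    exact unrAt_of_good q.2 hq.2 fun h => hq.1 ((Nat.prime_dvd_prime_iff_eq q.2 hp0).mp h)
  have hram : ∀ q ∈ bigS W p, q ∉ unrT W p → (q : ℕ) ≠ p → ¬ UnrAt W p q :=
    fun q hq hqT hqp hun => hqT ((mem_unrT hΔ hp0).mpr
      ⟨((mem_bigS hΔ hp0).mp hq).resolve_left hqp, hqp, hun⟩)
  have hTW : TWData p (bigS W p) (RDW hΔ hirr hp2 O).rbar (chiB hΔ hirr hp2 O) :=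
    RDW_TWData hΔ hirr hp2 hSunr (nLIn_of_semistable hss hΔ hirr hp2 O)
  obtain ⟨Pc, hPc, hPW, r, hr⟩ := hmode hΔ hirr hp2 O K _ hζ hpO G (bigS W p) (unrT W p)
    (Finset.filter_subset _ _) hSunr hpS
    (fun t ht => ((mem_unrT hΔ hp0).mp ht).2) hram hTW
  let D₀ : ℕ := p * W.Δ.natAbs
  have hD₀ : D₀ ≠ 0 := mul_ne_zero hp0.ne_zero (Int.natAbs_ne_zero.mpr hΔ)
  have hpD₀ : p ∣ D₀ := dvd_mul_right _ _
  have hΔD₀ : ∀ q : ℕ, q.Prime → (q : ℤ) ∣ W.Δ → q ∣ D₀ :=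
    fun q _ h => (Int.natCast_dvd.mp h).mul_left _
  have hc : ∀ n : ℕ, ∃ c : TWCore p r, TWOk (O := O) hΔ hirr hp2 (bigS W p) D₀ n c ∧
      SelOut (RDW hΔ hirr hp2 O) p Pc (bigS W p) (unrT W p) r
        (fun j => ⟨c.q j, c.prime j⟩) := by
    intro n
    obtain ⟨qv, h1, h2, h3, h4, h5⟩ := hr (n + 1) D₀ (Nat.succ_ne_zero n) hD₀
    obtain ⟨c, hcq, hce, hcu⟩ := exists_TWCore hΔ hirr hp2 (n := n + 1)
      (fun j => (qv j : ℕ)) (fun i j hij => h1 (Subtype.ext hij)) h4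
    have hq : ∀ j, (⟨c.q j, c.prime j⟩ : Nat.Primes) = qv j := fun j =>
      Subtype.ext (congrFun hcq j)
    refine ⟨c, ⟨fun j => (Nat.le_succ n).trans (hce j), fun j => ?_, fun j => ?_, fun j => ?_,
      fun j => ?_⟩, ?_⟩
    · rw [hcq]; exact hcu j
    · rw [hcq]; exact h4 j
    · rw [hcq]; exact h2 j
    · rw [hq]; exact h3 j
    · have : (fun j => (⟨c.q j, c.prime j⟩ : Nat.Primes)) = qv := funext hq
      rw [this]; exact h5
  choose c hc1 hc2 using hc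
  exact ⟨O, i1, i2, i3, i4, i5, i6, i7, i9, K, inferInstance, inferInstance, inferInstance, hK,
    hpO, ⟨bigS W p, hSunr, D₀, hD₀, hpD₀, hΔD₀, _, hζ, kill_of_Geo hΔ hirr G, hTW, G, r, c, hc1⟩,
    rfl, rfl, Pc, hPc, hPW, hc2⟩

/-- **The output of the towers in the modes `F` and `S`.** -/
theorem finOut_FS {b : Prop} (hΔ : W.Δ ≠ 0) (hss : W.IsSemistableModel) (hp2 : p ≠ 2)
    (hirr : W.ModRepIsIrreducible p) (G : Geo p) {N : ℕ} (hN : MinLevel W p N)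
    (hbN : p ∣ N ↔ b) (hnew : ∀ q : ℕ, q.Prime → NewP W p q) (hmode : ModeW W p b) :
    FinOut W := by
  classical
  obtain ⟨O, i1, i2, i3, i4, i5, i6, i7, i8, K, i9, i10, i11, i12, hpO, I, hIS, hID, Pc, hPc,
    hPW, hSel⟩ := exists_setupW hΔ hss hirr hp2 G hmode
  obtain ⟨Tw⟩ := MinLevel.exists_tow I K hpO hIS hID hN
  have hSg : ∀ q : Nat.Primes, q ∉ I.S → (q : ℕ) ≠ p ∧ W.IsGoodPrimeFor q := by
    intro q hq
    rw [hIS, mem_bigS hΔ hp.out, not_or] at hq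
    exact hq
  refine I.tower hss hSg (tv := Tw.tv) Tw.tv_ne Tw.tv_dvd Tw.tv_unr Tw.X Tw.j₀ Tw.step
    (Tw.sq _) (Tw.sq _) (fun t ht => Tw.hst (hnew 2 Nat.prime_two) hN.sq t ht) fun n => ?_
  refine SelB.reindex (tv := fun t : (unrT W p) => (t : Nat.Primes)) Tw.e (fun t => rfl)
    (hSel n (Fin (Tw.m + 1) ⊕ Unit) _ _ _ ?_ ?_)
  · have h2N : p = 3 → 2 ∣ N := fun h3 => by
      rcases hN.two with h | ⟨h, -⟩
      · exact h
      · exact absurd h3 h
    rintro (i | i)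
    · exact hPc ((Tw.X i).toCmp.hin 1 n) fun x =>
        Tw.lvOk hbN (hnew p hp.out) (fun h => hN.mode.mp h) h2N i n x
    · exact hPW (fun q hq => hSg q fun h => hq (Finset.mem_union_left _ h))
        (good_of_notMem (I.Dn_ne n) (I.hpD₀.trans (I.dvd_Dn n))
          fun q hq h => (I.hΔD₀ q hq h).trans (I.dvd_Dn n))
  · rintro (i | i) x q hqS hqT hqp A hA σ hσ
    · have hqD : (q : ℕ) ∣ I.D₀ := by
        rw [hID]
        rw [hIS, mem_bigS hΔ hp.out] at hqS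
        exact (Int.natCast_dvd.mp (hqS.resolve_left hqp)).mul_left _
      exact hin_inertia (Tw.X i).B.hpO I.Ge (RDW_isCyc hΔ hirr hp2) (RDW_hc hΔ hirr hp2)
        ((Tw.X i).toCmp.hin 1 n) x q.2 hqp (Tw.not_sq_dvd_lvl i n x q.2 hqD) hA hσ
    · have h := tW_inertia (O := O) hΔ hirr q.2 hqp (hss _ q.2) hA hσ
      exact h

end

end Fermat.Agent.TFin
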