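import Mathlib
import Fermat.Agent.H26.ModeW
import Fermat.Agent.H26.WSide
import Fermat.Agent.H12.LL.ModeF

/-!
# The flat mode for the towers
-/

set_option autoImplicit false
set_option linter.unusedSectionVars false
set_option linter.style.haveILetI false

noncomputable section

namespace Fermat.Agent.TFin

open Fermat.Agent.TC Fermat.Agent.TW Fermat.Agent.CC Fermat.Agent.H25.GE Fermat.Agent.H25.TR
open Fermat.Agent.Ell Fermat.Agent.H25 Fermat.Agent.H25.PR Fermat.Agent.H25.PT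
open Fermat.Agent.H22 Fermat.Agent.H05 Fermat.Agent.H25.SB Fermat.Agent.H12.LL
open IsLocalRing CongruenceSubgroup Matrix
open scoped Pointwise

variable {W : WeierstrassCurve ℤ} {p : ℕ} [hp : Fact p.Prime]

/-- flatness of the component of the curve -/
theorem flT_WC (hΔ : W.Δ ≠ 0) (hirr : W.ModRepIsIrreducible p) (hp2 : p ≠ 2)
    (O : Type) [CommRing O] [IsDomain O] [IsDiscreteValuationRing O]
    [IsAdicComplete (maximalIdeal O) O] [Algebra ℤ_[p] O] [IsLocalHom (algebraMap ℤ_[p] O)]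
    [Finite (ResidueField O)] [CharZero O]
    (hgood : W.IsGoodPrimeFor p) {S : Finset Nat.Primes} {bad : Finset ℕ}
    (hS : ∀ q : Nat.Primes, q ∉ S → (q : ℕ) ≠ p ∧ W.IsGoodPrimeFor q)
    (hbad : ∀ ℓ : ℕ, ℓ.Prime → ℓ ∉ bad → ℓ ≠ p ∧ W.IsGoodPrimeFor ℓ)
    (hbar : HBar (RDW hΔ hirr hp2 O) S) :
    FlT p O ((WC hΔ hirr hp2 O S bad hS hbad).C hbar).t := by
  haveI : ∀ x : (WC hΔ hirr hp2 O S bad hS hbad).X,
    Module.Finite O ((WC hΔ hirr hp2 O S bad hS hbad).P x) := fun x => inferInstance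
  refine FlT.of_pi (WC hΔ hirr hp2 O S bad hS hbad).f (WC hΔ hirr hp2 O S bad hS hbad).f_inj
    fun x => ?_
  have h1 : (fun g => (WC hΔ hirr hp2 O S bad hS hbad).f
      (((WC hΔ hirr hp2 O S bad hS hbad).C hbar).t g) x) = tW W p O := by
    funext g
    exact (WC hΔ hirr hp2 O S bad hS hbad).ev_C hbar g x
  have h2 : FlT p O (tW W p O) := flT_tW hΔ hgood
  rw [← h1] at h2
  exact h2

open scoped Classical in
/-- **the flat mode for the towers** -/
theorem modeW_false (hGW : SB.GWad p) (hgood : W.IsGoodPrimeFor p) : ModeW W p False := by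
  intro hΔ hirr hp2 O _ _ _ _ _ _ _ _ K _ _ _ _ ζ hζ hpO Ge S T hTS hSunr hpS hT hram hTW
  haveI := charP_res p O
  refine ⟨fun {S'} {bad} H => ∀ hbar : HBar (RDW hΔ hirr hp2 O) S', FlT p O (H.C hbar).t,
    fun H hH hbar => H.flT_cd hpO Ge _ _ hbar fun x => (hH x).2.1 id,
    fun hS hbad hbar => flT_WC hΔ hirr hp2 O hgood hS hbad hbar, ?_⟩
  have hram' : ∀ q ∈ S, q ∉ T → q ≠ ⟨p, hp.out⟩ →
      ∃ τ ∈ (plv (q : ℕ) q.2).inertiaSubgroupIn ℚ, (RDW hΔ hirr hp2 O).rbar τ ≠ 1 := by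
    intro q hq hqT hqp
    have h1 := hram q hq hqT (fun h => hqp (Subtype.ext h))
    by_contra hcon
    push Not at hcon
    refine h1 fun A hA σ hσ P hP => ?_
    obtain ⟨g, hg⟩ := exists_smul_eq q.2 (plv_over (q : ℕ) q.2) hA
    have h2 : g⁻¹ * σ * g ∈ (plv (q : ℕ) q.2).inertiaSubgroupIn ℚ :=
      Fermat.Agent.H09.inertia_conj (by rw [hg]; exact hσ)
    have h3 := (RDW_rbar_eq_one_iff hΔ hirr hp2 (O := O) _).mp (hcon _ h2)
    have h4 := h3 (g⁻¹ • P) (by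
      have h5 := (DistribSMul.toAddMonoidHom (Pts (WQ W)) (g⁻¹ : GQ)).map_nsmul p P
      rw [hP, map_zero] at h5
      exact h5.symm)
    have e : g⁻¹ * σ * g = g⁻¹ * (σ * g) := by group
    rw [e, mul_smul, mul_smul, smul_inv_smul] at h4
    exact (smul_left_cancel _ h4)
  obtain ⟨r, hr⟩ := SB.exists_SelB_flat (D := RDW hΔ hirr hp2 O) hGW hp2
    (χ := chiB hΔ hirr hp2 O) (S := S) (T := T) (pp := ⟨p, hp.out⟩) rfl hpS
    (fun h => (hT _ h).1 rfl) hTS hTW hram' (RDW_isCyc hΔ hirr hp2) hpO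
    (lflat_RDW hΔ hirr hp2 O hζ hSunr (plv_over _ _))
  refine ⟨r, fun n D₀ hn hD₀ => ?_⟩
  obtain ⟨qv, h1, h2, h3⟩ := hr n D₀.primeFactors
  refine ⟨qv, h1, fun j h => (h2 j).1 (Nat.mem_primeFactors.mpr ⟨(qv j).2, h, hD₀⟩),
    fun j => (h2 j).2.1, fun j => (h2 j).2.2, ?_⟩
  intro κ _ _ bad H hbar hPc hun
  exact h3 _ (by congr) κ bad H hbar (fun i => hPc i hbar) (fun q hq hqT hqp i x τ hτ =>
    hun i x q hq hqT (fun h => hqp (Subtype.ext h)) _ (plv_over _ _) τ hτ)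

end Fermat.Agent.TFin
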