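import Mathlib
import Fermat.Agent.H26.FinFS
import Fermat.Agent.H26.ModeWF
import Fermat.Agent.H13.LL.NewP

/-!
# Modularity lifting in the flat mode
-/

set_option autoImplicit false
set_option linter.unusedSectionVars false

noncomputable section

namespace Fermat.Agent.TFin

open Fermat.Agent.TW Fermat.Agent.CC Fermat.Agent.Ell Fermat.Agent.H12.LL

variable {W : WeierstrassCurve ℤ} {p : ℕ} [hp : Fact p.Prime]

/-- **Mode `F`.** -/
theorem finOut_F (hΔ : W.Δ ≠ 0) (hss : W.IsSemistableModel) (hp2 : p ≠ 2)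
    (hirr : W.ModRepIsIrreducible p) (hGW : H25.SB.GWad p) (G : H25.PT.Geo p)
    (hgood : W.IsGoodPrimeFor p) {N : ℕ} (hN : MinLevel W p N) : FinOut W :=
  finOut_FS (b := False) hΔ hss hp2 hirr G hN
    ⟨fun h => hgood (hN.dvd_disc p hp.out h), False.elim⟩
    (fun _ hq => newP W p hq) (modeW_false hGW hgood)

end Fermat.Agent.TFin
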